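import Mathlib
import Fermat.Agent.Lib.ModC.Model
import Fermat.Agent.Lib.FFs.Const

/-!
# The place count of a model in any characteristic

Port of `Lib/ModC/{NormEmb, NormInt, Count, Cyclic, Model}` and of
`Lib/FunctionField/Separate` from characteristic zero (`IsFF1`) to separating elements in any
characteristic (`IsFF1s`).  Main result: `Fermat.Agent.Lib.ModC.Model.card_zeros_s`.
-/

set_option autoImplicit false
set_option linter.style.haveILetI false
set_option linter.unusedSectionVars false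

open AlgebraicCurve WithZero IsDedekindDomain IntermediateField Polynomial
open scoped IntermediateField.algebraAdjoinAdjoin
open scoped MatrixGroups

namespace Fermat.Agent.Lib.ModCs

open Fermat.Agent.Lib.FF Fermat.Agent.Lib.FFs Fermat.Agent.Lib.ModC CongruenceSubgroup

variable {K F : Type*} [Field K] [Field F] [Algebra K F]

section Norm

theorem norm_eq_prod_of_card {y : F} [FiniteDimensional K⟮y⟯ F]
    [Algebra.IsSeparable K⟮y⟯ F]
    {Ω : Type*} [Field Ω] {Γ : Type*} [Fintype Γ] (τ : Γ → F →+* Ω)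
    (hτ_inj : Function.Injective τ)
    (hτ_K : ∀ (g g' : Γ) (c : K), τ g (algebraMap K F c) = τ g' (algebraMap K F c))
    (hτ_y : ∀ g g' : Γ, τ g y = τ g' y)
    (hcard : Fintype.card Γ = Module.finrank K⟮y⟯ F) (g₀ : Γ) (b : F) :
    τ g₀ ((Algebra.norm K⟮y⟯ b : K⟮y⟯) : F) = ∏ g, τ g b := by
  classical
  let algE : Algebra K⟮y⟯ (AlgebraicClosure Ω) :=
    ((algebraMap Ω (AlgebraicClosure Ω)).comp ((τ g₀).comp (algebraMap K⟮y⟯ F))).toAlgebra
  -- the algebra homs
  let σ : Γ → (F →ₐ[K⟮y⟯] (AlgebraicClosure Ω)) := fun g =>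
    { toRingHom := (algebraMap Ω (AlgebraicClosure Ω)).comp (τ g)
      commutes' := fun u => by
        show algebraMap Ω (AlgebraicClosure Ω) (τ g (u : F))
          = algebraMap Ω (AlgebraicClosure Ω) (τ g₀ (u : F))
        rw [eq_on_adjoin_simple (τ g) (τ g₀) (hτ_K g g₀) (hτ_y g g₀) u u.2] }
  have hσ_inj : Function.Injective σ := by
    intro g g' h
    apply hτ_inj
    ext f
    have := congrArg (fun s : F →ₐ[K⟮y⟯] (AlgebraicClosure Ω) => s f) h
    exact (algebraMap Ω (AlgebraicClosure Ω)).injective this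
  have hσ_bij : Function.Bijective σ := by
    rw [Fintype.bijective_iff_injective_and_card]
    refine ⟨hσ_inj, ?_⟩
    rw [hcard, AlgHom.card]
  have h1 := Algebra.norm_eq_prod_embeddings K⟮y⟯ (AlgebraicClosure Ω) b
  have h2 : ∏ s : F →ₐ[K⟮y⟯] (AlgebraicClosure Ω), s b = ∏ g, σ g b :=
    (Fintype.prod_bijective σ hσ_bij _ _ (fun _ => rfl)).symm
  rw [h2] at h1
  have h3 : ∏ g, σ g b = algebraMap Ω (AlgebraicClosure Ω) (∏ g, τ g b) := by
    rw [map_prod]; rfl
  rw [h3] at h1
  exact (algebraMap Ω (AlgebraicClosure Ω)).injective h1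


theorem exists_integral_cofactor {y : F} [FiniteDimensional K⟮y⟯ F]
    [Algebra.IsSeparable K⟮y⟯ F] (b : F)
    (hb : IsIntegral (Algebra.adjoin K {y}) b) (hb0 : b ≠ 0) :
    ∃ c : F, IsIntegral (Algebra.adjoin K {y}) c ∧
      ((Algebra.norm K⟮y⟯ b : K⟮y⟯) : F) = b * c := by
  classical
  set f : (Algebra.adjoin K {y}) →+* F := algebraMap (Algebra.adjoin K {y}) F with hf
  set φ : F →+* AlgebraicClosure F := algebraMap F (AlgebraicClosure F) with hφ
  have h1 := Algebra.norm_eq_prod_embeddings K⟮y⟯ (AlgebraicClosure F) b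
  let σ₀ : F →ₐ[K⟮y⟯] AlgebraicClosure F := IsScalarTower.toAlgHom K⟮y⟯ F (AlgebraicClosure F)
  rw [← Finset.mul_prod_erase Finset.univ (fun σ : F →ₐ[K⟮y⟯] AlgebraicClosure F => σ b)
    (Finset.mem_univ σ₀)] at h1
  have hσ₀ : σ₀ b = φ b := rfl
  have hN : algebraMap K⟮y⟯ (AlgebraicClosure F) (Algebra.norm K⟮y⟯ b)
      = φ ((Algebra.norm K⟮y⟯ b : K⟮y⟯) : F) := rfl
  rw [hσ₀, hN] at h1
  -- each conjugate is integral
  have hconj : ∀ σ : F →ₐ[K⟮y⟯] AlgebraicClosure F, (φ.comp f).IsIntegralElem (σ b) := by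
    intro σ
    obtain ⟨p, hp, hpb⟩ := hb
    refine ⟨p, hp, ?_⟩
    have hcomp : φ.comp f = (σ : F →+* AlgebraicClosure F).comp f := by
      ext a
      have ha : (a : F) ∈ K⟮y⟯ := IntermediateField.algebra_adjoin_le_adjoin K {y} a.2
      have := σ.commutes ⟨(a : F), ha⟩
      exact this.symm
    rw [hcomp]
    have h2 := Polynomial.hom_eval₂ p f (σ : F →+* AlgebraicClosure F) b
    rw [show eval₂ f b p = 0 from hpb, map_zero] at h2
    exact h2.symm
  have hprod := isIntegralElem_finset_prod (φ.comp f) (Finset.univ.erase σ₀)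
    (fun σ : F →ₐ[K⟮y⟯] AlgebraicClosure F => σ b) (fun σ _ => hconj σ)
  refine ⟨((Algebra.norm K⟮y⟯ b : K⟮y⟯) : F) / b, ?_, by field_simp⟩
  have hc : φ (((Algebra.norm K⟮y⟯ b : K⟮y⟯) : F) / b)
      = ∏ σ ∈ Finset.univ.erase σ₀, (σ : F →ₐ[K⟮y⟯] AlgebraicClosure F) b := by
    rw [map_div₀, h1]
    have : φ b ≠ 0 := by rwa [ne_eq, map_eq_zero]
    field_simp
  rw [← hc] at hprod
  obtain ⟨p, hp, hpc⟩ := hprod
  refine ⟨p, hp, ?_⟩
  have h2 := Polynomial.hom_eval₂ p f φ (((Algebra.norm K⟮y⟯ b : K⟮y⟯) : F) / b)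
  rw [hpc] at h2
  exact φ.injective (by rw [h2, map_zero])


end Norm

section Main

variable {y : F} (hy : IsFF1s K F y)
  {Ω : Type*} [Field Ω] (w : Ω → ℤ) (hw : IsOrdFun w)
  {Γ : Type*} [Fintype Γ] (τ : Γ → F →+* Ω)
  (hτ_inj : Function.Injective τ)
  (hτ_K : ∀ (g g' : Γ) (c : K), τ g (algebraMap K F c) = τ g' (algebraMap K F c))
  (hτ_y : ∀ g g' : Γ, τ g y = τ g' y)
  (hw_K : ∀ (g : Γ) (c : K), c ≠ 0 → w (τ g (algebraMap K F c)) = 0)
  (hcard : Fintype.card Γ = Module.finrank K⟮y⟯ F)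
  (o : ℕ) (ho : 0 < o) (hwy : ∀ g, w (τ g y) = o)

include hy hw hτ_inj hτ_K hτ_y hcard ho hwy in
/-- Surjectivity: every place over `y = 0` is the place of some embedding. -/
theorem exists_emb_of_place
    (hE3 : ∀ (v : Place K F), 0 < v.ord y → ∀ s : Finset (Place K F), v ∉ s →
        (∀ u ∈ s, 0 ≤ u.ord y) →
        ∃ b : F, IsIntegral (Algebra.adjoin K {y}) b ∧ 0 < v.ord b ∧ ∀ u ∈ s, u.ord b = 0)
    (pl : Γ → Place K F) (d : Γ → ℕ) (hd : ∀ g, 0 < d g)
    (hpl : ∀ g (f : F), f ≠ 0 → w (τ g f) = d g * (pl g).ord f)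
    (v : Place K F) (hv : 0 < v.ord y) : ∃ g, pl g = v := by
  classical
  have := hy.finite
  have := hy.separable
  by_contra hcon
  rw [not_exists] at hcon
  have hy0 : y ≠ 0 := fun h => by
    rw [h] at hv; simp at hv
  have hply : ∀ g, 0 < (pl g).ord y := by
    intro g
    have h1 := hpl g y hy0
    rw [hwy g] at h1
    have h2 : (0 : ℤ) < d g := by exact_mod_cast hd g
    have h3 : (0 : ℤ) < o := by exact_mod_cast ho
    rw [h1] at h3
    by_contra h4
    rw [not_lt] at h4
    nlinarith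
  obtain ⟨b, hbint, hbv, hbs⟩ := hE3 v hv (Finset.univ.image pl)
    (by
      rw [Finset.mem_image]
      rintro ⟨g, -, hg⟩
      exact hcon g hg)
    (by
      intro u hu
      rw [Finset.mem_image] at hu
      obtain ⟨g, -, rfl⟩ := hu
      exact (hply g).le)
  have hb0 : b ≠ 0 := fun h => by
    rw [h] at hbv; simp at hbv
  -- Γ is nonempty
  have hΓ : Nonempty Γ := by
    rw [← Fintype.card_pos_iff, hcard]
    exact Module.finrank_pos
  obtain ⟨g₀⟩ := hΓ
  -- the norm
  set Nb : F := ((Algebra.norm K⟮y⟯ b : K⟮y⟯) : F) with hNb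
  have hnorm := norm_eq_prod_of_card τ hτ_inj hτ_K hτ_y hcard g₀ b
  obtain ⟨c, hcint, hc⟩ := exists_integral_cofactor b hbint hb0
  have hNb0 : Nb ≠ 0 := by
    rw [hNb, ne_eq, ZeroMemClass.coe_eq_zero, Algebra.norm_eq_zero_iff]
    exact hb0
  have hc0 : c ≠ 0 := by
    rintro rfl
    rw [mul_zero] at hc
    exact hNb0 hc
  -- `w (τ g₀ Nb) = 0`
  have hw0 : w (τ g₀ Nb) = 0 := by
    rw [hnorm]
    have hprod : ∀ s : Finset Γ, w (∏ g ∈ s, τ g b) = ∑ g ∈ s, w (τ g b) := by
      intro s
      induction s using Finset.induction_on with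
      | empty => simpa using hw.one
      | insert a s ha ih =>
        rw [Finset.prod_insert ha, Finset.sum_insert ha, hw.mul _ _ ((_root_.map_ne_zero _).mpr hb0)
          (Finset.prod_ne_zero_iff.mpr fun g _ => (_root_.map_ne_zero _).mpr hb0), ih]
    rw [hprod]
    apply Finset.sum_eq_zero
    intro g _
    rw [hpl g b hb0, hbs (pl g) (Finset.mem_image_of_mem pl (Finset.mem_univ g)), mul_zero]
  -- hence `(pl g₀).ord Nb = 0`
  have h1 : (pl g₀).ord Nb = 0 := by
    have h := hpl g₀ Nb hNb0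
    rw [hw0] at h
    have h2 : (d g₀ : ℤ) ≠ 0 := by exact_mod_cast (hd g₀).ne'
    rcases mul_eq_zero.mp h.symm with h3 | h3
    · exact absurd h3 h2
    · exact h3
  -- transfer to `v` along `K(y)`
  have h2 := IsOrdFun.proportional_on_adjoin (K := K) (isOrdFun_ord v) (isOrdFun_ord (pl g₀))
    (fun c _ => ord_algebraMap v c) (fun c _ => ord_algebraMap (pl g₀) c) hv (hply g₀) Nb
    (Algebra.norm K⟮y⟯ b).2 hNb0
  rw [h1, zero_mul] at h2
  have h3 : v.ord Nb = 0 := by
    rcases mul_eq_zero.mp h2 with h | h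
    · exact h
    · exact absurd h (hply g₀).ne'
  -- but `v.ord Nb = v.ord b + v.ord c > 0`
  have h4 : v.ord Nb = v.ord b + v.ord c := by
    rw [hNb, hc, Place.ord_mul v hb0 hc0]
  have h5 := ord_nonneg_of_isIntegral v hv.le c hcint
  omega

include hy hw hτ_inj hτ_K hτ_y hw_K hcard ho hwy in
/-- **The counting lemma.** -/
theorem card_zeros_eq_card_classes
    (hfin : {v : Place K F | 0 < v.ord y}.Finite)
    (hE1 : ∑ v ∈ hfin.toFinset, v.ord y = (Module.finrank K⟮y⟯ F : ℤ))
    (hE3 : ∀ (v : Place K F), 0 < v.ord y → ∀ s : Finset (Place K F), v ∉ s →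
        (∀ u ∈ s, 0 ≤ u.ord y) →
        ∃ b : F, IsIntegral (Algebra.adjoin K {y}) b ∧ 0 < v.ord b ∧ ∀ u ∈ s, u.ord b = 0)
    (r : Setoid Γ)
    (hr : ∀ g g', r g g' → ∀ f : F, w (τ g f) = w (τ g' f))
    (hdiv : ∀ (g : Γ) (f : F), f ≠ 0 → (o : ℤ) ∣ w (τ g f) * Nat.card {g' : Γ // r g g'}) :
    Nat.card {v : Place K F // 0 < v.ord y} = Nat.card (Quotient r) := by
  classical
  have hy0 : y ≠ 0 := by
    rintro rfl
    exact hy.transcendental (isAlgebraic_zero)
  -- the places of the embeddings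
  have hex : ∀ g, ∃ (v : Place K F) (d : ℕ), 0 < d ∧
      ∀ f : F, f ≠ 0 → w (τ g f) = d * v.ord f := by
    intro g
    obtain ⟨v, d, hd, -, h⟩ := exists_place_of_ord (K := K) (fun f => w (τ g f))
      (isOrdFun_comp hw (τ g)).mul (isOrdFun_comp hw (τ g)).add
      (fun c hc => hw_K g c (by rintro rfl; simp at hc))
      ⟨y, hy0, by rw [hwy]; exact_mod_cast ho.ne'⟩
    exact ⟨v, d, hd, h⟩
  choose pl d hd hpl using hex
  have hply : ∀ g, 0 < (pl g).ord y := by
    intro g
    have h1 := hpl g y hy0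
    rw [hwy g] at h1
    have h2 : (0 : ℤ) < d g := by exact_mod_cast hd g
    have h3 : (0 : ℤ) < o := by exact_mod_cast ho
    rw [h1] at h3
    by_contra h4
    rw [not_lt] at h4
    nlinarith
  have hplr : ∀ g g', r g g' → pl g = pl g' := by
    intro g g' h
    apply place_ext_of_ord
    intro f hf hf0
    have h1 := hpl g f hf
    have h2 := hpl g' f hf
    rw [hr g g' h f, h2] at h1
    have h3 : (0 : ℤ) < d g' := by exact_mod_cast hd g'
    have h4 : (0 : ℤ) < d g := by exact_mod_cast hd g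
    by_contra h5
    rw [not_le] at h5
    nlinarith
  -- ramification bound
  have hram : ∀ g, (pl g).ord y ≤ Nat.card {g' : Γ // r g g'} := by
    intro g
    obtain ⟨t, ht⟩ := exists_ord_eq_one (pl g)
    have ht0 : t ≠ 0 := by
      rintro rfl
      simp at ht
    have h1 := hdiv g t ht0
    rw [hpl g t ht0, ht, mul_one] at h1
    have h2 := hpl g y hy0
    rw [hwy g] at h2
    rw [h2] at h1
    have h3 : (d g : ℤ) ≠ 0 := by exact_mod_cast (hd g).ne'
    have h4 : (pl g).ord y ∣ (Nat.card {g' : Γ // r g g'} : ℤ) :=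
      (mul_dvd_mul_iff_left h3).mp h1
    have h5 : 0 < Nat.card {g' : Γ // r g g'} := by
      have : Nonempty {g' : Γ // r g g'} := ⟨⟨g, r.refl g⟩⟩
      exact Nat.card_pos
    exact Int.le_of_dvd (by exact_mod_cast h5) h4
  -- surjectivity
  have hsurj := exists_emb_of_place hy w hw τ hτ_inj hτ_K hτ_y hcard o ho hwy hE3 pl d hd hpl
  -- the map on classes
  let plQ : Quotient r → Place K F := Quotient.lift pl hplr
  have hplQ : ∀ g, plQ (Quotient.mk r g) = pl g := fun g => rfl
  have hmaps : ∀ c ∈ (Finset.univ : Finset (Quotient r)), plQ c ∈ hfin.toFinset := by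
    intro c _
    induction c using Quotient.inductionOn with
    | h g =>
      rw [Set.Finite.mem_toFinset]
      exact hply g
  -- class sizes
  have hclass : ∀ g, (Nat.card {g' : Γ // r g g'})
      = (Finset.univ.filter (fun g' : Γ => Quotient.mk r g' = Quotient.mk r g)).card := by
    intro g
    rw [Nat.card_eq_fintype_card, Fintype.card_subtype]
    congr 1
    ext g'
    simp only [Finset.mem_filter, Finset.mem_univ, true_and]
    rw [Quotient.eq]
    exact ⟨fun h => r.symm h, fun h => r.symm h⟩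
  have hsum1 : ∑ c : Quotient r, (plQ c).ord y ≤ (Module.finrank K⟮y⟯ F : ℤ) := by
    have h1 : ∑ c : Quotient r, (plQ c).ord y
        ≤ ∑ c : Quotient r, ((Finset.univ.filter (fun g' : Γ => Quotient.mk r g' = c)).card : ℤ) := by
      apply Finset.sum_le_sum
      intro c _
      induction c using Quotient.inductionOn with
      | h g =>
        have := hram g
        rw [hclass g] at this
        exact this
    have h2 : ∑ c : Quotient r, ((Finset.univ.filter (fun g' : Γ => Quotient.mk r g' = c)).card : ℤ)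
        = (Fintype.card Γ : ℤ) := by
      rw [← Nat.cast_sum, ← Finset.card_eq_sum_card_fiberwise (f := Quotient.mk r)
        (s := Finset.univ) (t := Finset.univ) (fun _ _ => Finset.mem_univ _), Finset.card_univ]
    rw [h2, hcard] at h1
    exact h1
  have hsum2 : ∑ c : Quotient r, (plQ c).ord y
      = ∑ v ∈ hfin.toFinset, ((Finset.univ.filter (fun c : Quotient r => plQ c = v)).card : ℤ)
          * v.ord y := by
    rw [← Finset.sum_fiberwise_of_maps_to hmaps]
    apply Finset.sum_congr rfl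
    intro v _
    rw [Finset.sum_congr rfl (g := fun _ => v.ord y)
      (fun c hc => by rw [(Finset.mem_filter.mp hc).2])]
    rw [Finset.sum_const, nsmul_eq_mul]
  have hfib_pos : ∀ v ∈ hfin.toFinset,
      1 ≤ (Finset.univ.filter (fun c : Quotient r => plQ c = v)).card := by
    intro v hv
    rw [Set.Finite.mem_toFinset] at hv
    obtain ⟨g, hg⟩ := hsurj v hv
    exact Finset.card_pos.mpr ⟨Quotient.mk r g, by simp [hplQ, hg]⟩
  have hfib_one : ∀ v ∈ hfin.toFinset,
      (Finset.univ.filter (fun c : Quotient r => plQ c = v)).card = 1 := by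
    by_contra hcon
    rw [not_forall] at hcon
    obtain ⟨v₀, hcon⟩ := hcon
    rw [Classical.not_imp] at hcon
    obtain ⟨hv₀, hne⟩ := hcon
    have h2 : 2 ≤ (Finset.univ.filter (fun c : Quotient r => plQ c = v₀)).card := by
      have := hfib_pos v₀ hv₀
      omega
    have hlt : ∑ v ∈ hfin.toFinset, v.ord y
        < ∑ v ∈ hfin.toFinset,
          ((Finset.univ.filter (fun c : Quotient r => plQ c = v)).card : ℤ) * v.ord y := by
      apply Finset.sum_lt_sum
      · intro v hv
        have h1 := hfib_pos v hv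
        have h3 : 0 < v.ord y := (Set.Finite.mem_toFinset hfin).mp hv
        have h4 : (1 : ℤ) ≤ ((Finset.univ.filter (fun c : Quotient r => plQ c = v)).card : ℤ) := by
          exact_mod_cast h1
        nlinarith
      · refine ⟨v₀, hv₀, ?_⟩
        have h3 : 0 < v₀.ord y := (Set.Finite.mem_toFinset hfin).mp hv₀
        have h4 : (2 : ℤ) ≤ ((Finset.univ.filter (fun c : Quotient r => plQ c = v₀)).card : ℤ) := by
          exact_mod_cast h2
        nlinarith
    rw [← hsum2, hE1] at hlt
    exact absurd hsum1 (not_le.mpr hlt)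
  -- conclusion
  have hcardQ : Fintype.card (Quotient r) = hfin.toFinset.card := by
    rw [← Finset.card_univ, Finset.card_eq_sum_card_fiberwise (f := plQ) hmaps,
      Finset.sum_congr rfl hfib_one]
    simp
  rw [Nat.card_eq_fintype_card (α := Quotient r), hcardQ, ← Set.ncard_eq_toFinset_card _ hfin]
  exact Nat.card_coe_set_eq {v : Place K F | 0 < v.ord y}

end Main


section Orbits

theorem card_zeros_eq_card_orbits {y : F} (hy : IsFF1s K F y)
    (hfin : {v : Place K F | 0 < v.ord y}.Finite)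
    (hE1 : ∑ v ∈ hfin.toFinset, v.ord y = (Module.finrank K⟮y⟯ F : ℤ))
    (hE3 : ∀ (v : Place K F), 0 < v.ord y → ∀ s : Finset (Place K F), v ∉ s →
        (∀ u ∈ s, 0 ≤ u.ord y) →
        ∃ b : F, IsIntegral (Algebra.adjoin K {y}) b ∧ 0 < v.ord b ∧ ∀ u ∈ s, u.ord b = 0)
    {Ω : Type*} [Field Ω] (w : Ω → ℤ) (hw : IsOrdFun w)
    {G X : Type*} [Group G] [MulAction G X] [Fintype X] (τ : X → F →+* Ω)
    (hτ_inj : Function.Injective τ)
    (hτ_K : ∀ (g g' : X) (c : K), τ g (algebraMap K F c) = τ g' (algebraMap K F c))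
    (hτ_y : ∀ g g' : X, τ g y = τ g' y)
    (hw_K : ∀ (g : X) (c : K), c ≠ 0 → w (τ g (algebraMap K F c)) = 0)
    (hcard : Fintype.card X = Module.finrank K⟮y⟯ F)
    (o : ℕ) (ho : 0 < o) (hwy : ∀ g, w (τ g y) = o)
    (δ : G)
    (hinv : ∀ (x : X) (f : F), w (τ (δ • x) f) = w (τ x f))
    (hdiv : ∀ (x : X) (f : F) (h : ℕ), f ≠ 0 → 0 < h → δ ^ h • x = x →
      (o : ℤ) ∣ h * w (τ x f)) :
    Nat.card {v : Place K F // 0 < v.ord y}
      = Nat.card (MulAction.orbitRel.Quotient (Subgroup.zpowers δ) X) := by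
  classical
  have hpow : ∀ (n : ℕ) (x : X) (f : F), w (τ (δ ^ n • x) f) = w (τ x f) := by
    intro n
    induction n with
    | zero => intro x f; rw [pow_zero, one_smul]
    | succ n ih =>
      intro x f
      rw [pow_succ', mul_smul, hinv, ih]
  have hzpow : ∀ (k : ℤ) (x : X) (f : F), w (τ (δ ^ k • x) f) = w (τ x f) := by
    intro k x f
    rcases Int.eq_nat_or_neg k with ⟨n, rfl | rfl⟩
    · rw [zpow_natCast]; exact hpow n x f
    · have := hpow n (δ ^ (-(n : ℤ)) • x) f
      rw [← zpow_natCast, ← mul_smul, ← zpow_add, add_neg_cancel, zpow_zero, one_smul] at this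
      exact this.symm
  refine card_zeros_eq_card_classes hy w hw τ hτ_inj hτ_K hτ_y hw_K hcard o ho hwy hfin hE1 hE3
    (MulAction.orbitRel (Subgroup.zpowers δ) X) ?_ ?_
  · intro x x' h f
    rw [MulAction.orbitRel_apply] at h
    obtain ⟨⟨g, hg⟩, hgx⟩ := h
    obtain ⟨k, rfl⟩ := Subgroup.mem_zpowers_iff.mp hg
    have : δ ^ k • x' = x := hgx
    rw [← this, hzpow]
  · intro x f hf
    rw [card_orbit_class δ x, mul_comm]
    have hpos : 0 < Function.minimalPeriod (δ • ·) x := by
      apply Function.minimalPeriod_pos_of_mem_periodicPts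
      have hinj : Function.Injective (fun x' : X => δ • x') := MulAction.injective δ
      exact hinj.mem_periodicPts x
    refine hdiv x f _ hf hpos ?_
    exact MulAction.pow_period_smul δ x


end Orbits

section Separate

variable [IsAlgClosed K]

/-- E3, general form: a place `v` at which `y` is regular can be separated from finitely many
other such places by an element integral over `K[y]`. -/
theorem exists_integral_separating_of_nonneg {y : F} (hy : IsFF1s K F y)
    (v : Place K F) (hv : 0 ≤ v.ord y) (s : Finset (Place K F)) (hvs : v ∉ s)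
    (hs : ∀ w ∈ s, 0 ≤ w.ord y) :
    ∃ b : F, IsIntegral (Algebra.adjoin K {y}) b ∧ 0 < v.ord b ∧ ∀ w ∈ s, w.ord b = 0 := by
  classical
  haveI := hy.finite
  haveI := hy.separable
  haveI := isPrincipalIdealRing_adjoin K y
  haveI := isDedekindDomain_intClosure K y
  haveI := isFractionRing_intClosure K y
  obtain ⟨P, rfl⟩ := exists_prime_of_place (K := K)
    (B := integralClosure (Algebra.adjoin K {y}) F) v (intClosure_le_of_ord_nonneg K y v hv)
  have hQ : ∀ w ∈ s, ∃ Q : HeightOneSpectrum (integralClosure (Algebra.adjoin K {y}) F),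
      placeOfPrime (K := K) Q = w := fun w hw =>
    exists_prime_of_place (K := K) (B := integralClosure (Algebra.adjoin K {y}) F) w
      (intClosure_le_of_ord_nonneg K y w (hs w hw))
  haveI : Nonempty (HeightOneSpectrum (integralClosure (Algebra.adjoin K {y}) F)) := ⟨P⟩
  choose! Q hQ using hQ
  have hnot : ¬ ((P.asIdeal : Set (integralClosure (Algebra.adjoin K {y}) F)) ⊆
      ⋃ w ∈ (s : Set (Place K F)), ((Q w).asIdeal : Set _)) := by
    rw [Ideal.subset_union_prime (f := fun w => (Q w).asIdeal) (placeOfPrime (K := K) P)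
      (placeOfPrime (K := K) P) (fun w _ _ _ => (Q w).isPrime)]
    rintro ⟨w, hw, hle⟩
    have hmax := P.isMaximal
    have heq : P.asIdeal = (Q w).asIdeal := hmax.eq_of_le (Q w).isPrime.ne_top hle
    have hPQ : P = Q w := HeightOneSpectrum.ext heq
    apply hvs
    rw [hPQ, hQ w hw]
    exact hw
  obtain ⟨b, hbP, hbQ⟩ := Set.not_subset.mp hnot
  by_cases hse : s = ∅
  · obtain ⟨c, hc⟩ := exists_primeOrd_eq_one (F := F) P
    refine ⟨algebraMap _ F c, c.2, ?_, ?_⟩
    · rw [placeOfPrime_ord, hc]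
      exact one_pos
    · intro w hw
      rw [hse] at hw
      simp at hw
  obtain ⟨w₀, hw₀⟩ := Finset.nonempty_iff_ne_empty.mpr hse
  have hb0 : b ≠ 0 := by
    intro h
    apply hbQ
    simp only [Set.mem_iUnion]
    refine ⟨w₀, hw₀, ?_⟩
    rw [h]
    exact (Q w₀).asIdeal.zero_mem
  refine ⟨algebraMap _ F b, b.2, ?_, ?_⟩
  · rw [placeOfPrime_ord]
    exact primeOrd_algebraMap_pos_of_mem P hbP hb0
  · intro w hw
    rw [← hQ w hw, placeOfPrime_ord]
    apply primeOrd_algebraMap_of_notMem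
    intro hmem
    apply hbQ
    simp only [Set.mem_iUnion]
    exact ⟨w, hw, hmem⟩

/-- E3 in the form used by the counting lemma. -/
theorem exists_integral_separating {y : F} (hy : IsFF1s K F y) :
    ∀ v : Place K F, 0 < v.ord y → ∀ s : Finset (Place K F), v ∉ s → (∀ w ∈ s, 0 ≤ w.ord y) →
      ∃ b : F, IsIntegral (Algebra.adjoin K {y}) b ∧ 0 < v.ord b ∧ ∀ w ∈ s, w.ord b = 0 :=
  fun v hv s hvs hs => exists_integral_separating_of_nonneg hy v (le_of_lt hv) s hvs hs


end Separate

section ModelCount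

/-- The place count of a model, in any characteristic (`y` separating). -/
theorem _root_.Fermat.Agent.Lib.ModC.Model.card_zeros_s [IsAlgClosed K] {N : ℕ} {y : F} {o : ℕ}
    {δ : SL(2, ℤ)} (M : Model K F N y o δ) (ho : 0 < o) (hy : IsFF1s K F y)
    [Finite (SL(2, ℤ) ⧸ Gamma0 N)]
    (hdeg : Module.finrank K⟮y⟯ F = Nat.card (SL(2, ℤ) ⧸ Gamma0 N)) :
    Nat.card {v : Place K F // 0 < v.ord y}
      = Nat.card (MulAction.orbitRel.Quotient (Subgroup.zpowers δ) (SL(2, ℤ) ⧸ Gamma0 N)) := by
  classical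
  letI : Fintype (SL(2, ℤ) ⧸ Gamma0 N) := Fintype.ofFinite _
  have hpf := placeFacts_of_isFF1s hy
  let τX : (SL(2, ℤ) ⧸ Gamma0 N) → (F →+* M.Ω) :=
    Quotient.lift M.τ (fun γ γ' h => by
      rw [M.τ_eq_iff]
      exact QuotientGroup.leftRel_apply.mp h)
  have hτX : ∀ γ : SL(2, ℤ), τX (γ : SL(2, ℤ) ⧸ Gamma0 N) = M.τ γ := fun γ => rfl
  refine card_zeros_eq_card_orbits hy (hpf.finite_zeros y hy.transcendental)
    (hpf.sum_ord_zeros y hy.transcendental) (exists_integral_separating hy) M.w M.isOrdFun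
    τX ?_ ?_ ?_ ?_ ?_ o ho ?_ δ ?_ ?_
  · intro x x' h
    induction x using QuotientGroup.induction_on with
    | H γ =>
      induction x' using QuotientGroup.induction_on with
      | H γ' =>
        rw [hτX, hτX, M.τ_eq_iff] at h
        exact QuotientGroup.eq.mpr h
  · intro x x' c
    induction x using QuotientGroup.induction_on with
    | H γ =>
      induction x' using QuotientGroup.induction_on with
      | H γ' => rw [hτX, hτX, M.τ_const γ, M.τ_const γ']
  · intro x x'
    induction x using QuotientGroup.induction_on with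
    | H γ =>
      induction x' using QuotientGroup.induction_on with
      | H γ' => rw [hτX, hτX, M.τ_y γ, M.τ_y γ']
  · intro x c hc
    induction x using QuotientGroup.induction_on with
    | H γ => rw [hτX]; exact M.w_const γ c hc
  · rw [hdeg, Nat.card_eq_fintype_card]
  · intro x
    induction x using QuotientGroup.induction_on with
    | H γ => rw [hτX, M.τ_y γ, M.w_y]
  · intro x f
    induction x using QuotientGroup.induction_on with
    | H γ =>
      rw [MulAction.Quotient.smul_mk, hτX, hτX]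
      exact M.w_stab γ f
  · intro x f h hf hh hfix
    induction x using QuotientGroup.induction_on with
    | H γ =>
      rw [hτX]
      exact M.w_dvd γ f h hf hh ((smul_mk_eq_iff _ γ).mp hfix)


end ModelCount

end Fermat.Agent.Lib.ModCs
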